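import Mathlib
import Fermat.Agent.LT.A2.H38.MatchSpec

/-!
# Row LT, tower A2, branch GALSEED -- leaf `PlaceExistsC` (registry row 839, helper798)

OFF-MAIN.  `placeExistsC798 : Fermat.Agent.LT.A2.H38.PlaceExistsC` (VERBATIM the Prop of
`LT/A2/H38/MatchSpec.lean`, origin/helper38@28f1a145c).

A valuation subring `A` of `ℚ̄` with `p ∈ 𝔪_A` contains `𝓞 K` (it is integrally closed), and
`𝔪_A ∩ 𝓞 K` is a nonzero prime ideal of `𝓞 K` containing `p`.
-/

set_option autoImplicit false

open IsDedekindDomain NumberField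

noncomputable section

namespace Fermat.Agent.LT.A2.H798

/-- An element of `ℚ̄` which is integral over `ℤ` lies in every valuation subring. -/
theorem mem_valuationSubring_of_isIntegral798 {L : Type*} [Field L] (A : ValuationSubring L)
    {x : L} (hx : IsIntegral ℤ x) : x ∈ A := by
  have hA : IsIntegral A x := hx.tower_top
  obtain ⟨y, hy⟩ := IsIntegrallyClosed.isIntegral_iff.mp hA
  rw [← hy]
  exact y.2

/-- The ring homomorphism `𝓞 K → A`. -/
def toValSub798 (K : IntermediateField ℚ (AlgebraicClosure ℚ))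
    (A : ValuationSubring (AlgebraicClosure ℚ)) : 𝓞 K →+* A where
  toFun x := ⟨((x : K) : AlgebraicClosure ℚ), mem_valuationSubring_of_isIntegral798 A (by
    have h1 : IsIntegral ℤ (x : K) := RingOfIntegers.isIntegral_coe x
    exact h1.map (IsScalarTower.toAlgHom ℤ K (AlgebraicClosure ℚ)))⟩
  map_one' := by ext; simp
  map_mul' a b := by ext; simp
  map_zero' := by ext; simp
  map_add' a b := by ext; simp

theorem toValSub798_coe (K : IntermediateField ℚ (AlgebraicClosure ℚ))
    (A : ValuationSubring (AlgebraicClosure ℚ)) (x : 𝓞 K) :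
    ((toValSub798 K A x : A) : AlgebraicClosure ℚ) = ((x : K) : AlgebraicClosure ℚ) := rfl

/-- **PLACEEXISTS** (registry row 839). -/
theorem placeExistsC798 : Fermat.Agent.LT.A2.H38.PlaceExistsC := by
  intro K _ p hp A hA
  classical
  set I : Ideal (𝓞 K) := Ideal.comap (toValSub798 K A) (IsLocalRing.maximalIdeal A) with hI
  have hmem : ∀ x : 𝓞 K, x ∈ I ↔ (((x : K) : AlgebraicClosure ℚ)) ∈ A.nonunits := by
    intro x
    rw [hI, Ideal.mem_comap, ValuationSubring.mem_nonunits_iff_exists_mem_maximalIdeal]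
    constructor
    · intro h
      exact ⟨(toValSub798 K A x).2, h⟩
    · rintro ⟨_, h⟩
      exact h
  have hprime : I.IsPrime := Ideal.comap_isPrime _ _
  have hpI : ((p : ℕ) : 𝓞 K) ∈ I := by
    rw [hmem]
    have : (((((p : ℕ) : 𝓞 K) : K)) : AlgebraicClosure ℚ) = ((p : ℕ) : AlgebraicClosure ℚ) := by
      simp
    rw [this]
    exact hA
  have hne : I ≠ ⊥ := by
    intro h0
    rw [h0, Ideal.mem_bot] at hpI
    have h1 : ((p : ℕ) : 𝓞 K) ≠ 0 := Nat.cast_ne_zero.mpr hp.ne_zero
    exact h1 hpI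
  refine ⟨⟨I, hprime, hne⟩, ?_, hpI⟩
  intro x
  exact hmem x

end Fermat.Agent.LT.A2.H798

end
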