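import Fermat.Agent.LT.A2.H798.CpxSpec

/-!
# Row LT, tower A2, leaf A2.03.1.1.10.10 `CX798.TransportC` (helper798, OFF-MAIN)

The plumbing `K_u ≅ ℂ` for a complex place `u`: from the certificate `CpxPackC` of the closed
form on `ℂ`, the classification `CharFormC` of the characters of `ℂ` and the local
non-triviality `LocNontrivC` of the adele character to `WX467.LocCpxC`.
-/

set_option autoImplicit false
set_option linter.unusedSectionVars false
set_option linter.unusedVariables false
set_option linter.style.haveILetI false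

open IsDedekindDomain NumberField AutomorphicForm MeasureTheory
open scoped MatrixGroups Topology ComplexConjugate

noncomputable section

namespace Fermat.Agent.LT.A2.CX798

open Fermat.Agent.LT.H130 Fermat.Agent.LT.H556 Fermat.Agent.LT.A2 Fermat.Agent.LT.A2.WX467

/-! ## 1. Matrices and forms under a homomorphism of fields -/

section Hom

variable {k : Type} [Field k] (φ : k →+* ℂ)

theorem map_unip798 (x : k) :
    (!![1, x; 0, 1] : Matrix (Fin 2) (Fin 2) k).map φ = !![1, φ x; 0, 1] := by
  ext i j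
  fin_cases i <;> fin_cases j <;> simp

theorem map_weyl798 :
    (!![0, 1; -1, 0] : Matrix (Fin 2) (Fin 2) k).map φ = !![0, 1; -1, 0] := by
  ext i j
  fin_cases i <;> fin_cases j <;> simp

theorem map_diag798 (a : k) :
    (!![a, 0; 0, a⁻¹] : Matrix (Fin 2) (Fin 2) k).map φ = !![φ a, 0; 0, (φ a)⁻¹] := by
  ext i j
  fin_cases i <;> fin_cases j <;> simp

theorem map_dOne798 (a : k) :
    (!![1, 0; 0, a] : Matrix (Fin 2) (Fin 2) k).map φ = !![1, 0; 0, φ a] := by
  ext i j
  fin_cases i <;> fin_cases j <;> simp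

theorem map_torMat798 (t n a b : k) :
    (torMat t n a b).map φ = torMat (φ t) (φ n) (φ a) (φ b) := by
  ext i j
  fin_cases i <;> fin_cases j <;> simp [torMat]

theorem map_mul798 (A B : Matrix (Fin 2) (Fin 2) k) :
    (A * B).map φ = A.map φ * B.map φ := Matrix.map_mul

theorem map_one798 : (1 : Matrix (Fin 2) (Fin 2) k).map φ = 1 :=
  Matrix.map_one φ (map_zero φ) (map_one φ)

theorem det_map798 (A : Matrix (Fin 2) (Fin 2) k) : (A.map φ).det = φ A.det :=
  (RingHom.map_det φ A).symm

theorem map_inv798 (A : Matrix (Fin 2) (Fin 2) k) : (A⁻¹).map φ = (A.map φ)⁻¹ := by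
  rw [Matrix.inv_def, Matrix.inv_def, det_map798, Ring.inverse_eq_inv', Ring.inverse_eq_inv',
    ← map_inv₀]
  have h := RingHom.map_adjugate φ A
  ext i j
  have hij := congrFun (congrFun h i) j
  simp only [Matrix.map_apply, Matrix.smul_apply, smul_eq_mul, map_mul]
  congr 1

theorem inTorL_map798 {t n : k} {m : Matrix (Fin 2) (Fin 2) k} (h : InTorL t n m) :
    InTorL (φ t) (φ n) (m.map φ) := by
  obtain ⟨a, b, rfl⟩ := h
  exact ⟨φ a, φ b, map_torMat798 φ t n a b⟩

theorem admL_map798 {t n : k} {g m : Matrix (Fin 2) (Fin 2) k} (h : AdmL t n g m) :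
    AdmL (φ t) (φ n) (g.map φ) (m.map φ) := by
  obtain ⟨h1, h2, h3⟩ := h
  refine ⟨inTorL_map798 φ h1, ?_, ?_⟩
  · rw [det_map798, det_map798, h2]
  · rw [det_map798]
    exact fun h0 => h3 ((map_eq_zero φ).1 h0)

/-- The pair of images. -/
def mapV798 (ξ : k × k) : ℂ × ℂ := (φ ξ.1, φ ξ.2)

theorem qfL_map798 (t n : k) (ξ : k × k) :
    φ (qfL t n ξ) = qfL (φ t) (φ n) (mapV798 φ ξ) := by
  simp [qfL, mapV798]

theorem bfL_map798 (t n : k) (ξ y : k × k) :
    φ (bfL t n ξ y) = bfL (φ t) (φ n) (mapV798 φ ξ) (mapV798 φ y) := by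
  simp [bfL, qfL, mapV798]

theorem actL_map798 (m : Matrix (Fin 2) (Fin 2) k) (ξ : k × k) :
    mapV798 φ (actL m ξ) = actL (m.map φ) (mapV798 φ ξ) := by
  simp [actL, mapV798]

theorem smul_map798 (a : k) (ξ : k × k) : mapV798 φ (a • ξ) = φ a • mapV798 φ ξ := by
  simp [mapV798]

end Hom

/-! ## 2. The completion at a complex place -/

section Place

variable {K : Type} [Field K] [NumberField K] (u : InfinitePlace K) (hu : u.IsComplex)

/-- The embedding `K_u → ℂ`. -/
abbrev emb798 : u.Completion →+* ℂ := InfinitePlace.Completion.extensionEmbedding u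

theorem norm_emb798 (x : u.Completion) : ‖emb798 u x‖ = ‖x‖ :=
  (InfinitePlace.Completion.isometry_extensionEmbedding u).norm_map_of_map_zero
    (map_zero _) x

theorem emb_algebraMap798 (a : K) : emb798 u (algebraMap K u.Completion a) = u.embedding a := by
  have h := InfinitePlace.Completion.extensionEmbedding_coe u ((WithAbs.equiv u.1).symm a)
  rw [RingEquiv.apply_symm_apply] at h
  exact h

/-- The homeomorphism `K_u ≃ ℂ`. -/
def homeo798 : u.Completion ≃ₜ ℂ :=
  (InfinitePlace.Completion.isometryEquivComplexOfIsComplex hu).toHomeomorph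

theorem homeo_apply798 (x : u.Completion) : homeo798 u hu x = emb798 u x := rfl

theorem emb_symm798 (z : ℂ) : emb798 u ((homeo798 u hu).symm z) = z :=
  (homeo798 u hu).apply_symm_apply z

theorem symm_emb798 (x : u.Completion) : (homeo798 u hu).symm (emb798 u x) = x :=
  (homeo798 u hu).symm_apply_apply x

/-- The measurable equivalence `K_u ≃ ℂ` for the Borel σ-algebras. -/
def mequiv798 : @MeasurableEquiv u.Completion ℂ (borel u.Completion) (borel ℂ) :=
  letI : MeasurableSpace u.Completion := borel u.Completion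
  haveI : BorelSpace u.Completion := ⟨rfl⟩
  (homeo798 u hu).toMeasurableEquiv

theorem mequiv_apply798 (x : u.Completion) : mequiv798 u hu x = emb798 u x := rfl

/-- The image of the Lebesgue measure of `ℂ` on `K_u`. -/
def muU798 : @Measure u.Completion (borel u.Completion) :=
  letI : MeasurableSpace u.Completion := borel u.Completion
  Measure.map (mequiv798 u hu).symm volC

theorem muU_apply798 (S : Set u.Completion) : muU798 u hu S = volC (emb798 u '' S) := by
  letI : MeasurableSpace u.Completion := borel u.Completion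
  have h := MeasurableEquiv.map_apply (μ := volC) (mequiv798 u hu).symm S
  rw [muU798, h]
  congr 1
  ext z
  constructor
  · intro hz
    exact ⟨(mequiv798 u hu).symm z, hz, (mequiv798 u hu).apply_symm_apply z⟩
  · rintro ⟨x, hx, rfl⟩
    show (mequiv798 u hu).symm (mequiv798 u hu x) ∈ S
    rw [(mequiv798 u hu).symm_apply_apply]
    exact hx

theorem intL_muU798 (f : u.Completion × u.Completion → ℂ) :
    intL (muU798 u hu) f
      = intL volC fun y => f ((homeo798 u hu).symm y.1, (homeo798 u hu).symm y.2) := by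
  letI : MeasurableSpace u.Completion := borel u.Completion
  unfold intL muU798
  haveI : SFinite volC := inferInstanceAs (SFinite (volume : Measure ℂ))
  rw [Measure.map_prod_map volC volC (mequiv798 u hu).symm.measurable
    (mequiv798 u hu).symm.measurable]
  exact integral_map_equiv
    (MeasurableEquiv.prodCongr (mequiv798 u hu).symm (mequiv798 u hu).symm) f

theorem integrableL_muU798 (f : u.Completion × u.Completion → ℂ)
    (h : IntegrableL volC fun y => f ((homeo798 u hu).symm y.1, (homeo798 u hu).symm y.2)) :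
    IntegrableL (muU798 u hu) f := by
  letI : MeasurableSpace u.Completion := borel u.Completion
  unfold IntegrableL muU798 at *
  haveI : SFinite volC := inferInstanceAs (SFinite (volume : Measure ℂ))
  rw [Measure.map_prod_map volC volC (mequiv798 u hu).symm.measurable
    (mequiv798 u hu).symm.measurable]
  exact (integrable_map_equiv
    (MeasurableEquiv.prodCongr (mequiv798 u hu).symm (mequiv798 u hu).symm) f).2 h

theorem haar_muU798 :
    (letI : MeasurableSpace u.Completion := borel u.Completion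
      ∀ (x : u.Completion) (S : Set u.Completion),
        muU798 u hu ((fun y => x + y) '' S) = muU798 u hu S) ∧
      (∀ C : Set u.Completion, IsCompact C → muU798 u hu C < ⊤) ∧
      ∀ U : Set u.Completion, IsOpen U → U.Nonempty → 0 < muU798 u hu U := by
  obtain ⟨h1, h2, h3⟩ := haar_volC798
  refine ⟨?_, ?_, ?_⟩
  · intro x S
    rw [muU_apply798, muU_apply798]
    have h : emb798 u '' ((fun y => x + y) '' S) = (fun z => emb798 u x + z) '' (emb798 u '' S) := by
      ext z
      constructor
      · rintro ⟨_, ⟨y, hy, rfl⟩, rfl⟩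
        exact ⟨emb798 u y, ⟨y, hy, rfl⟩, (map_add _ _ _).symm⟩
      · rintro ⟨_, ⟨y, hy, rfl⟩, rfl⟩
        exact ⟨x + y, ⟨y, hy, rfl⟩, map_add _ _ _⟩
    rw [h]
    exact h1 (emb798 u x) _
  · intro C hC
    rw [muU_apply798]
    exact h2 _ (hC.image (homeo798 u hu).continuous)
  · intro U hU hne
    rw [muU_apply798]
    exact h3 _ ((homeo798 u hu).isOpenMap U hU) (hne.image _)

end Place

/-! ## 3. The local axioms on `K_u` -/

section Ax

variable {K : Type} [Field K] [NumberField K] (u : InfinitePlace K)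

/-- The family on `K_u`. -/
def FU798 (c ω₁ ω₂ : ℂ) (g m : Matrix (Fin 2) (Fin 2) u.Completion)
    (ξ : u.Completion × u.Completion) : ℂ :=
  FC c ω₁ ω₂ (g.map (emb798 u)) (m.map (emb798 u)) (mapV798 (emb798 u) ξ)

theorem admL_emb798 {ω₁ ω₂ : ℂ} {tK nK : K} (hT : ω₁ + ω₂ = u.embedding tK)
    (hN : ω₁ * ω₂ = u.embedding nK) {g m : Matrix (Fin 2) (Fin 2) u.Completion}
    (h : AdmL (algebraMap K u.Completion tK) (algebraMap K u.Completion nK) g m) :
    AdmL (ω₁ + ω₂) (ω₁ * ω₂) (g.map (emb798 u)) (m.map (emb798 u)) := by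
  have h1 := admL_map798 (emb798 u) h
  rw [emb_algebraMap798, emb_algebraMap798] at h1
  rw [hT, hN]
  exact h1

theorem inTorL_emb798 {ω₁ ω₂ : ℂ} {tK nK : K} (hT : ω₁ + ω₂ = u.embedding tK)
    (hN : ω₁ * ω₂ = u.embedding nK) {m : Matrix (Fin 2) (Fin 2) u.Completion}
    (h : InTorL (algebraMap K u.Completion tK) (algebraMap K u.Completion nK) m) :
    InTorL (ω₁ + ω₂) (ω₁ * ω₂) (m.map (emb798 u)) := by
  have h1 := inTorL_map798 (emb798 u) h
  rw [emb_algebraMap798, emb_algebraMap798] at h1
  rw [hT, hN]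
  exact h1

theorem mapV_symm798 (hu : u.IsComplex) (y : ℂ × ℂ) :
    mapV798 (emb798 u) ((homeo798 u hu).symm y.1, (homeo798 u hu).symm y.2) = y := by
  refine Prod.ext ?_ ?_
  · exact emb_symm798 u hu y.1
  · exact emb_symm798 u hu y.2

theorem continuous_mapV798 (hu : u.IsComplex) : Continuous (mapV798 (emb798 u)) := by
  unfold mapV798
  exact ((homeo798 u hu).continuous.comp continuous_fst).prodMk
    ((homeo798 u hu).continuous.comp continuous_snd)

theorem continuous_mapM798 (hu : u.IsComplex) :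
    Continuous fun g : Matrix (Fin 2) (Fin 2) u.Completion => g.map (emb798 u) :=
  Continuous.matrix_map continuous_id (homeo798 u hu).continuous

theorem mult_eq_two798 (hu : u.IsComplex) : u.mult = 2 := InfinitePlace.mult_isComplex ⟨u, hu⟩

theorem locAx_transport798 (hu : u.IsComplex) (c ω₁ ω₂ : ℂ) (tK nK : K) (hT : ω₁ + ω₂ = u.embedding tK)
    (hN : ω₁ * ω₂ = u.embedding nK) (P : CpxPack c ω₁ ω₂) :
    LocAx (fun x : u.Completion => ‖x‖ ^ u.mult) (algebraMap K u.Completion tK)
      (algebraMap K u.Completion nK) (fun y => psiC c (emb798 u y)) (muU798 u hu)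
      (gamC c ω₁ ω₂) (fun _ => 1) (FU798 u c ω₁ ω₂) := by
  have hqf : ∀ ξ : u.Completion × u.Completion,
      emb798 u (qfL (algebraMap K u.Completion tK) (algebraMap K u.Completion nK) ξ)
        = qfL (ω₁ + ω₂) (ω₁ * ω₂) (mapV798 (emb798 u) ξ) := by
    intro ξ
    rw [qfL_map798, emb_algebraMap798, emb_algebraMap798, hT, hN]
  have hbf : ∀ ξ y : u.Completion × u.Completion,
      emb798 u (bfL (algebraMap K u.Completion tK) (algebraMap K u.Completion nK) ξ y)
        = bfL (ω₁ + ω₂) (ω₁ * ω₂) (mapV798 (emb798 u) ξ) (mapV798 (emb798 u) y) := by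
    intro ξ y
    rw [bfL_map798, emb_algebraMap798, emb_algebraMap798, hT, hN]
  refine
    { unip := ?_
      weyl := ?_
      diag := ?_
      tor := ?_
      eta_mul := fun _ _ _ _ => (one_mul (1 : ℂ)).symm
      eta_sq := fun _ _ => Or.inl rfl
      eta_norm := fun _ _ _ => rfl
      eta_cont := continuousOn_const
      haar := haar_muU798 u hu
      psi_char := ?_
      cont := ?_
      integrable := ?_ }
  · intro x g m ξ h
    have h' := admL_emb798 u hT hN h
    unfold FU798
    rw [map_mul798, map_unip798, P.ax.unip (emb798 u x) _ _ _ h']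
    congr 2
    rw [map_mul, hqf]
  · intro g m ξ h
    have h' := admL_emb798 u hT hN h
    unfold FU798
    rw [map_mul798, map_weyl798, P.ax.weyl _ _ _ h', intL_muU798]
    congr 2
    funext y
    rw [hbf, mapV_symm798 u hu]
  · intro a ha g m ξ h
    have h' := admL_emb798 u hT hN h
    unfold FU798
    rw [map_mul798, map_diag798,
      P.ax.diag (emb798 u a) ((map_ne_zero (emb798 u)).2 ha) _ _ _ h', mult_eq_two798 u hu,
      norm_emb798, smul_map798]
  · intro μ' hμ hdet g m ξ h
    have h' := admL_emb798 u hT hN h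
    have hμ' := inTorL_emb798 u hT hN hμ
    have hdet' : (μ'.map (emb798 u)).det ≠ 0 := by
      rw [det_map798]
      exact (map_ne_zero (emb798 u)).2 hdet
    unfold FU798
    rw [map_mul798, map_mul798, map_dOne798, actL_map798, map_inv798, ← det_map798,
      ← P.ax.tor _ hμ' hdet' _ _ _ h', mult_eq_two798 u hu, det_map798, norm_emb798]
  · exact ⟨(continuous_psiC798 c).comp (homeo798 u hu).continuous,
      fun x y => by rw [map_add, psiC_add798], fun x => norm_psiC798 c _⟩
  · intro g m h
    have h' := admL_emb798 u hT hN h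
    unfold FU798
    exact (P.ax.cont _ _ h').comp (continuous_mapV798 u hu)
  · intro g m h
    have h' := admL_emb798 u hT hN h
    apply integrableL_muU798 u hu
    have h2 := P.ax.integrable _ _ h'
    have h3 : (fun y : ℂ × ℂ => FU798 u c ω₁ ω₂ g m
        ((homeo798 u hu).symm y.1, (homeo798 u hu).symm y.2))
        = FC c ω₁ ω₂ (g.map (emb798 u)) (m.map (emb798 u)) := by
      funext y
      unfold FU798
      rw [mapV_symm798 u hu]
    rw [h3]
    exact h2

end Ax

/-! ## 4. The adeles supported at `u`, the local character, the roots -/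

section Global

variable {K : Type} [Field K] [NumberField K] (u : InfinitePlace K)

/-- The adele supported at `u` with component `y`. -/
def inj798 (y : u.Completion) : A0.Adl K :=
  open Classical in
  (show InfiniteAdeleRing K × FiniteAdeleRing (𝓞 K) K from (Pi.single u y, 0))

theorem inj_fst_same798 (y : u.Completion) : (inj798 u y).1 u = y := by
  classical
  show (Pi.single u y : (v : InfinitePlace K) → v.Completion) u = y
  exact Pi.single_eq_same u y

theorem inj_fst_ne798 (y : u.Completion) {w : InfinitePlace K} (hw : w ≠ u) :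
    (inj798 u y).1 w = 0 := by
  classical
  show (Pi.single u y : (v : InfinitePlace K) → v.Completion) w = 0
  exact Pi.single_eq_of_ne hw y

theorem inj_snd798 (y : u.Completion) : (inj798 u y).2 = 0 := rfl

theorem continuous_inj798 : Continuous (inj798 u) := by
  classical
  unfold inj798
  exact (continuous_single (A := fun v : InfinitePlace K => v.Completion) u).prodMk
    continuous_const

theorem inj_add798 (x y : u.Completion) : inj798 u (x + y) = inj798 u x + inj798 u y := by
  classical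
  refine Prod.ext ?_ ?_
  · show (Pi.single u (x + y) : (v : InfinitePlace K) → v.Completion)
      = Pi.single u x + Pi.single u y
    exact Pi.single_add u x y
  · show (0 : FiniteAdeleRing (𝓞 K) K) = 0 + 0
    rw [add_zero]

theorem adlAtInf_inj798 (y : u.Completion) : WL.AdlAtInf u (inj798 u y) :=
  ⟨fun w hw => inj_fst_ne798 u y hw, fun v => rfl⟩

theorem eq_inj_of_adlAtInf798 {x : A0.Adl K} (hx : WL.AdlAtInf u x) :
    x = inj798 u (x.1 u) := by
  refine Prod.ext ?_ ?_
  · funext w
    by_cases hw : w = u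
    · subst hw
      exact (inj_fst_same798 w (x.1 w)).symm
    · rw [inj_fst_ne798 u _ hw]
      exact hx.1 w hw
  · rw [inj_snd798]
    exact RestrictedProduct.ext _ _ fun v => hx.2 v

theorem psiC_zero798 (x : ℂ) : psiC 0 x = 1 := by
  simp [psiC]

/-- The local character: `ψ` on the adeles supported at `u` is `ψ_c`, `c ≠ 0`. -/
theorem exists_local_char798 (hu : u.IsComplex) (hChar : CharFormC) (hNon : LocNontrivC)
    (ψ : A0.Adl K → ℂ) (hT1 : T1.T1Out K) (hψ : IsAdeleChar ψ) :
    ∃ c : ℂ, c ≠ 0 ∧ ∀ y : u.Completion, ψ (inj798 u y) = psiC c (emb798 u y) := by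
  obtain ⟨c, hc⟩ := hChar (fun z => ψ (inj798 u ((homeo798 u hu).symm z)))
    (hψ.cont.comp ((continuous_inj798 u).comp (homeo798 u hu).symm.continuous))
    (fun x y => by
      show ψ (inj798 u ((homeo798 u hu).symm (x + y))) = _
      have h : (homeo798 u hu).symm (x + y)
          = (homeo798 u hu).symm x + (homeo798 u hu).symm y := by
        apply (homeo798 u hu).injective
        rw [Homeomorph.apply_symm_apply, homeo_apply798, map_add, emb_symm798, emb_symm798]
      rw [h, inj_add798, hψ.map_add])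
    (fun x => hψ.norm_one _)
  have hy : ∀ y : u.Completion, ψ (inj798 u y) = psiC c (emb798 u y) := by
    intro y
    have := hc (emb798 u y)
    simp only [symm_emb798] at this
    exact this
  refine ⟨c, ?_, hy⟩
  rintro rfl
  obtain ⟨x, hx, hne⟩ := hNon K ψ u hT1 hψ
  apply hne
  rw [eq_inj_of_adlAtInf798 u hx, hy, psiC_zero798]

/-- The roots of `X² - u(t) X + u(n)`: distinct when `X² - tX + n` has no root in `K`. -/
theorem exists_roots798 (t n : K) (hirr : ∀ x : K, x ^ 2 - t * x + n ≠ 0) :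
    ∃ ω₁ ω₂ : ℂ, ω₁ ≠ ω₂ ∧ ω₁ + ω₂ = u.embedding t ∧ ω₁ * ω₂ = u.embedding n := by
  obtain ⟨s, hs⟩ := IsAlgClosed.exists_pow_nat_eq
    ((u.embedding t) ^ 2 - 4 * u.embedding n) (n := 2) (by norm_num)
  have hdisc : t ^ 2 - 4 * n ≠ 0 := by
    intro h0
    apply hirr (t / 2)
    have : (t / 2) ^ 2 - t * (t / 2) + n = -(t ^ 2 - 4 * n) / 4 := by ring
    rw [this, h0]
    simp
  have hs0 : s ≠ 0 := by
    rintro rfl
    apply hdisc
    apply u.embedding.injective
    have h4 : u.embedding (4 : K) = 4 := map_ofNat u.embedding 4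
    rw [map_sub, map_pow, map_mul, map_zero, h4, ← hs]
    simp
  refine ⟨(u.embedding t + s) / 2, (u.embedding t - s) / 2, ?_, ?_, ?_⟩
  · intro h
    apply hs0
    have : s = (u.embedding t + s) / 2 - (u.embedding t - s) / 2 := by ring
    rw [this, h, sub_self]
  · ring
  · have : (u.embedding t + s) / 2 * ((u.embedding t - s) / 2)
        = ((u.embedding t) ^ 2 - s ^ 2) / 4 := by ring
    rw [this, hs]
    ring

/-- Two pairs with the same sum and product. -/
theorem pair_eq798 {a b c d : ℂ} (hs : a + b = c + d) (hp : a * b = c * d) :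
    (a = c ∧ b = d) ∨ (a = d ∧ b = c) := by
  have h : (a - c) * (a - d) = 0 := by
    have hb : b = c + d - a := by rw [← hs]; ring
    rw [hb] at hp
    linear_combination -hp
  rcases mul_eq_zero.1 h with h1 | h1
  · have hac : a = c := sub_eq_zero.1 h1
    left
    refine ⟨hac, ?_⟩
    rw [hac] at hs
    exact add_left_cancel hs
  · have had : a = d := sub_eq_zero.1 h1
    right
    refine ⟨had, ?_⟩
    rw [had, add_comm c d] at hs
    exact add_left_cancel hs

end Global

/-! ## 5. The leaf -/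

section Leaf

variable {K : Type} [Field K] [NumberField K] (u : InfinitePlace K)

theorem embMat_eq798 (k : Matrix (Fin 2) (Fin 2) u.Completion) :
    embMat u k = k.map (emb798 u) := rfl

theorem FU_one_one798 (c ω₁ ω₂ : ℂ) (P : CpxPack c ω₁ ω₂) (ξ : u.Completion × u.Completion) :
    FU798 u c ω₁ ω₂ 1 1 ξ = gaussL u c ω₁ ω₂ ξ := by
  unfold FU798 gaussL
  rw [map_one798, P.gauss]
  rfl

theorem gaussL_swap798 (c ω₁ ω₂ : ℂ) (ξ : u.Completion × u.Completion) :
    gaussL u c ω₁ ω₂ ξ = gaussL u c ω₂ ω₁ ξ := by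
  unfold gaussL
  rw [add_comm (‖_‖ ^ 2)]

theorem right_inv_transport798 (hu : u.IsComplex) (c ω₁ ω₂ : ℂ) (tK nK : K)
    (hT : ω₁ + ω₂ = u.embedding tK) (hN : ω₁ * ω₂ = u.embedding nK) (P : CpxPack c ω₁ ω₂)
    (k κ : Matrix (Fin 2) (Fin 2) u.Completion)
    (hk : embMat u k * (embMat u k).conjTranspose = 1)
    (hκ : embMat u κ * (embMat u κ).conjTranspose = 1)
    (hκT : InTorL (algebraMap K u.Completion tK) (algebraMap K u.Completion nK) κ)
    (hdet : k.det = κ.det) (g m : Matrix (Fin 2) (Fin 2) u.Completion)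
    (ξ : u.Completion × u.Completion)
    (h : AdmL (algebraMap K u.Completion tK) (algebraMap K u.Completion nK) g m) :
    FU798 u c ω₁ ω₂ (g * k) (m * κ) ξ = FU798 u c ω₁ ω₂ g m ξ := by
  unfold FU798
  rw [map_mul798, map_mul798]
  refine P.right_inv _ _ ?_ ?_ (inTorL_emb798 u hT hN hκT) ?_ _ _ _ (admL_emb798 u hT hN h)
  · rw [← embMat_eq798]
    exact hk
  · rw [← embMat_eq798]
    exact hκ
  · rw [det_map798, det_map798, hdet]

theorem cont_transport798 (hu : u.IsComplex) (c ω₁ ω₂ : ℂ) (tK nK : K)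
    (hT : ω₁ + ω₂ = u.embedding tK) (hN : ω₁ * ω₂ = u.embedding nK) (P : CpxPack c ω₁ ω₂) :
    ContinuousOn
      (fun q : (Matrix (Fin 2) (Fin 2) u.Completion × Matrix (Fin 2) (Fin 2) u.Completion) ×
          (u.Completion × u.Completion) => FU798 u c ω₁ ω₂ q.1.1 q.1.2 q.2)
      {q | AdmL (algebraMap K u.Completion tK) (algebraMap K u.Completion nK) q.1.1 q.1.2} := by
  have hΦ : Continuous
      (fun q : (Matrix (Fin 2) (Fin 2) u.Completion × Matrix (Fin 2) (Fin 2) u.Completion) ×
          (u.Completion × u.Completion) =>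
        (((q.1.1.map (emb798 u), q.1.2.map (emb798 u)), mapV798 (emb798 u) q.2) :
          (Matrix (Fin 2) (Fin 2) ℂ × Matrix (Fin 2) (Fin 2) ℂ) × (ℂ × ℂ))) :=
    (((continuous_mapM798 u hu).comp (continuous_fst.comp continuous_fst)).prodMk
      ((continuous_mapM798 u hu).comp (continuous_snd.comp continuous_fst))).prodMk
      ((continuous_mapV798 u hu).comp continuous_snd)
  have hmaps : Set.MapsTo
      (fun q : (Matrix (Fin 2) (Fin 2) u.Completion × Matrix (Fin 2) (Fin 2) u.Completion) ×
          (u.Completion × u.Completion) =>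
        (((q.1.1.map (emb798 u), q.1.2.map (emb798 u)), mapV798 (emb798 u) q.2) :
          (Matrix (Fin 2) (Fin 2) ℂ × Matrix (Fin 2) (Fin 2) ℂ) × (ℂ × ℂ)))
      {q | AdmL (algebraMap K u.Completion tK) (algebraMap K u.Completion nK) q.1.1 q.1.2}
      {q | AdmL (ω₁ + ω₂) (ω₁ * ω₂) q.1.1 q.1.2} :=
    fun q hq => admL_emb798 u hT hN hq
  have h := ContinuousOn.comp P.cont hΦ.continuousOn hmaps
  unfold FU798
  exact h

theorem decay_transport798 (hu : u.IsComplex) (c ω₁ ω₂ : ℂ) (tK nK : K)
    (hT : ω₁ + ω₂ = u.embedding tK) (hN : ω₁ * ω₂ = u.embedding nK) (P : CpxPack c ω₁ ω₂)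
    (R : ℝ) : ∃ A δ : ℝ, 0 < δ ∧
      ∀ g m : Matrix (Fin 2) (Fin 2) u.Completion,
        AdmL (algebraMap K u.Completion tK) (algebraMap K u.Completion nK) g m →
        (∀ i j : Fin 2, ‖g i j‖ ≤ R ∧ ‖m i j‖ ≤ R ∧ ‖g⁻¹ i j‖ ≤ R ∧ ‖m⁻¹ i j‖ ≤ R) →
        ∀ ξ : u.Completion × u.Completion,
          ‖FU798 u c ω₁ ω₂ g m ξ‖ ≤ A * Real.exp (-δ * (‖ξ.1‖ ^ 2 + ‖ξ.2‖ ^ 2)) := by
  obtain ⟨A, δ, hδ, hA⟩ := P.decay R
  refine ⟨A, δ, hδ, fun g m h hb ξ => ?_⟩
  have h1 := hA (g.map (emb798 u)) (m.map (emb798 u)) (admL_emb798 u hT hN h) (by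
    intro i j
    obtain ⟨b1, b2, b3, b4⟩ := hb i j
    refine ⟨?_, ?_, ?_, ?_⟩
    · rw [Matrix.map_apply, norm_emb798]
      exact b1
    · rw [Matrix.map_apply, norm_emb798]
      exact b2
    · rw [← map_inv798, Matrix.map_apply, norm_emb798]
      exact b3
    · rw [← map_inv798, Matrix.map_apply, norm_emb798]
      exact b4) (mapV798 (emb798 u) ξ)
  unfold FU798
  have h2 : ‖(mapV798 (emb798 u) ξ).1‖ = ‖ξ.1‖ := norm_emb798 u ξ.1
  have h3 : ‖(mapV798 (emb798 u) ξ).2‖ = ‖ξ.2‖ := norm_emb798 u ξ.2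
  rw [h2, h3] at h1
  exact h1

/-- **Leaf CX.10 (transport).** -/
theorem transportC798 : TransportC := by
  intro hPack hChar hNon K _ _ t n χT ψ u hT1 hχ hψ hu
  obtain ⟨c, hc, hloc⟩ := exists_local_char798 u hu hChar hNon ψ hT1 hψ
  obtain ⟨ω₁, ω₂, hω, hsum, hprod⟩ := exists_roots798 u t n hχ.irred
  have P := hPack c ω₁ ω₂ hc hω
  refine ⟨fun y => psiC c (emb798 u y), muU798 u hu, gamC c ω₁ ω₂, fun _ => 1,
    FU798 u c ω₁ ω₂, ?_⟩
  intro L' hM hMI
  obtain ⟨ht, hn, hχT, hψL⟩ := hM
  obtain ⟨h1, h2, h3, h4, h5⟩ := hMI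
  refine
    { ax := ?_
      psi := ?_
      eta_one := ?_
      gauss := ?_
      right_inv := ?_
      cont := ?_
      decay := ?_ }
  · rw [WData.tinf, WData.ninf, ht, hn, h1, h2, h3, h4, h5]
    exact locAx_transport798 u hu c ω₁ ω₂ t n hsum hprod P
  · intro x hx
    rw [hψL, h1]
    calc ψ x = ψ (inj798 u (x.1 u)) := congrArg ψ (eq_inj_of_adlAtInf798 u hx)
      _ = psiC c (emb798 u (x.1 u)) := hloc _
  · intro a _
    rw [h4]
  · refine ⟨c, hc, ?_, ?_⟩
    · intro x
      rw [h1]
      rfl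
    · intro ω₁' ω₂' hs hp ξ
      rw [h5, FU_one_one798 u c ω₁ ω₂ P]
      rw [ht] at hs
      rw [hn] at hp
      rcases pair_eq798 (hs.trans hsum.symm) (hp.trans hprod.symm) with ⟨e1, e2⟩ | ⟨e1, e2⟩
      · rw [e1, e2]
      · rw [e1, e2]
        exact gaussL_swap798 u c ω₁ ω₂ ξ
  · intro k κ hk hκ hκT hdet g m ξ h
    rw [h5]
    rw [WData.tinf, WData.ninf, ht, hn] at hκT h
    exact right_inv_transport798 u hu c ω₁ ω₂ t n hsum hprod P k κ hk hκ hκT hdet g m ξ h
  · rw [h5, WData.tinf, WData.ninf, ht, hn]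
    exact cont_transport798 u hu c ω₁ ω₂ t n hsum hprod P
  · intro R
    rw [h5, WData.tinf, WData.ninf, ht, hn]
    exact decay_transport798 u hu c ω₁ ω₂ t n hsum hprod P R

end Leaf

end Fermat.Agent.LT.A2.CX798

end
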