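import Fermat.Agent.LT.A2.H467.DataSpec

/-!
# Row LT, tower A2, station A2.03.1.1.10 `WX467.LocCpxC` -- THE CUT (sub-architect helper798)

OFF-MAIN.  Definitions, frozen Props, the PROVED middle `cpxPack_of_leaves798` and the PROVED top
`locCpxC_of_leaves798`.  No holes, no opaque constant, nothing assumed.

    WX467.LocCpxC  ⟸  TransportC + CpxPackC + CharFormC + LocNontrivC
    CpxPackC       ⟸  UnipC + DiagC + TorC + WeylC + RegC + DecayC + RightInvC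
                                                      (`cpxPack_of_leaves798`, PROVED here)

## The local Weil family at a complex place, IN CLOSED FORM

Everything is written on `ℂ` (the completion `K_u` is `ℂ` by `extensionEmbedding`; `TransportC`
is the plumbing).  Let `ω₁ ≠ ω₂` be the roots of `X² - tX + n`, so `t = ω₁ + ω₂`, `n = ω₁ ω₂`,
`z_i = ξ₁ + ω_i ξ₂` the split coordinates (`Q(ξ) = z₁ z₂`), `ψ(x) = exp(4πi Re(c x))`, `c ≠ 0`,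
the Haar measure = LEBESGUE measure of `ℂ`, `η = 1`, module `|a| = ‖a‖²`, and

    γ = 4 ‖c‖² ‖ω₁ - ω₂‖²                                                   (`gamC`)

(`γ⁻¹ · Lebesgue` on `ℂ²` in the coordinates `ξ` is the self-dual measure for `ψ ∘ B`).  For
matrices `g`, `m` put `λ_i = m₀₀ + m₁₀ ω_i` (the eigenvalue of `m ∈ T` on `z_i`),
`N = ‖g₁₀‖² + ‖g₁₁‖²`, `B = g₀₀ conj(g₁₀) + g₀₁ conj(g₁₁)`.  Then

    F g m ξ = (‖λ₁ λ₂‖ / N) · exp( - 2π‖c‖ (‖λ₂ z₁‖² + ‖λ₁ z₂‖²) / N + 4πi Re(c B z₁ z₂) / N )   (`FC`)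

This IS `L(m) r(h) Φ₀`, `h = d(det m)⁻¹ g ∈ SL₂(ℂ)`, `Φ₀ = exp(-2π‖c‖(‖z₁‖² + ‖z₂‖²))`: in the
partial Fourier transform `z₂ ↦ v` the Weil representation is `Φ^((z₁, v) h)` (JL Prop. 1.6),
`Φ₀^ = exp(-2π‖c‖ ‖(z₁, v)‖²)`, and the inverse transform of `exp(-2π‖c‖ ‖(z₁, v) h‖²)` is the
Gaussian integral `D⁻¹ exp(-2π‖c‖ ‖z‖² / D + 4πi Re(c β z₁ z₂) / D)`, `D = ‖h₁₀‖² + ‖h₁₁‖²`,
`β = h₀₀ conj(h₁₀) + h₀₁ conj(h₁₁)` (`A D - ‖β‖² = ‖det h‖² = 1`).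
All the identities below were checked NUMERICALLY (random admissible pairs; the Weyl formula by
quadrature on `ℂ²`) before the freeze.

* `unip`: `n(x) g` has the same bottom row, `B ↦ B + x N`.
* `diag`: `t(a) g`: `N ↦ N / ‖a‖²`, `B ↦ (a / conj a) B`.
* `tor`:  `d(δ') g`, `μ' m`: `N ↦ ‖δ'‖² N`, `B ↦ conj(δ') B`, `λ_i ↦ λ'_i λ_i`
  (`[1, ω_i] μ' = λ'_i [1, ω_i]`), `z_i(μ'⁻¹ ξ) = z_i(ξ) / λ'_i`.
* `weyl`: `w g` has rows `(g₁, -g₀)`: `N ↦ M = ‖g₀₀‖² + ‖g₀₁‖²`, `B ↦ - conj B`,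
  `M N - ‖B‖² = ‖det g‖² = ‖λ₁ λ₂‖²`; change of variables `y ↦ (z₁(y), z₂(y))` (Jacobian
  `‖ω₁ - ω₂‖²`) and twice the Gaussian integral
  `∫_ℂ exp(-π a ‖v‖² + p Re v + q Im v) dv = a⁻¹ exp((p² + q²) / (4 π a))`, `a > 0`, `p q : ℂ`
  (Mathlib `GaussianFourier.integral_cexp_neg_mul_sum_add` on `Fin 2 → ℝ`, or
  `integral_cexp_quadratic` twice), Fubini.
* `right_inv`: `k` unitary preserves `N` and `B`; `κ ∈ T` unitary has `‖λ_i(κ)‖ = 1`.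
-/

set_option autoImplicit false

open IsDedekindDomain NumberField AutomorphicForm MeasureTheory
open scoped MatrixGroups Topology ComplexConjugate

noncomputable section

namespace Fermat.Agent.LT.A2.CX798

open Fermat.Agent.LT.H130 Fermat.Agent.LT.H556 Fermat.Agent.LT.A2 Fermat.Agent.LT.A2.WX467

/-! ## 1. The closed form on `ℂ` -/

/-- The additive character `ψ_c(x) = exp(4πi Re(c x))` of `ℂ`. -/
def psiC (c x : ℂ) : ℂ :=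
  Complex.exp (4 * Real.pi * Complex.I * (((c * x).re : ℝ) : ℂ))

/-- `λ_ω(m) = m₀₀ + m₁₀ ω`: the eigenvalue of `m = a + b M_ω` on the split coordinate
`ξ₁ + ω ξ₂`. -/
def lam (ω : ℂ) (m : Matrix (Fin 2) (Fin 2) ℂ) : ℂ := m 0 0 + m 1 0 * ω

/-- The squared norm of the bottom row. -/
def rowN (g : Matrix (Fin 2) (Fin 2) ℂ) : ℝ := ‖g 1 0‖ ^ 2 + ‖g 1 1‖ ^ 2

/-- The hermitian product of the top row with the bottom row. -/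
def rowB (g : Matrix (Fin 2) (Fin 2) ℂ) : ℂ := g 0 0 * conj (g 1 0) + g 0 1 * conj (g 1 1)

/-- **The local Weil family at a complex place, in closed form** (see the header). -/
def FC (c ω₁ ω₂ : ℂ) (g m : Matrix (Fin 2) (Fin 2) ℂ) (ξ : ℂ × ℂ) : ℂ :=
  ((‖lam ω₁ m * lam ω₂ m‖ / rowN g : ℝ) : ℂ) *
    Complex.exp
      (((-(2 * Real.pi * ‖c‖ *
          (‖lam ω₂ m * (ξ.1 + ω₁ * ξ.2)‖ ^ 2 + ‖lam ω₁ m * (ξ.1 + ω₂ * ξ.2)‖ ^ 2) / rowN g) : ℝ) : ℂ)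
        + 4 * Real.pi * Complex.I *
          (((c * rowB g * ((ξ.1 + ω₁ * ξ.2) * (ξ.1 + ω₂ * ξ.2))).re / rowN g : ℝ) : ℂ))

/-- The constant of the Weyl formula for the Lebesgue measure of `ℂ`. -/
def gamC (c ω₁ ω₂ : ℂ) : ℂ := ((4 * ‖c‖ ^ 2 * ‖ω₁ - ω₂‖ ^ 2 : ℝ) : ℂ)

/-- The Lebesgue measure of `ℂ`, as a measure for the Borel σ-algebra. -/
def volC : @Measure ℂ (borel ℂ) := (volume : Measure ℂ)

/-! ## 2. The leaves on `ℂ` (Mathlib + the six small definitions above + `LocAx` vocabulary) -/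

/-- **CX.01 UNIP.** -/
def UnipC : Prop :=
  ∀ (c ω₁ ω₂ x : ℂ) (g m : Matrix (Fin 2) (Fin 2) ℂ) (ξ : ℂ × ℂ),
    AdmL (ω₁ + ω₂) (ω₁ * ω₂) g m →
    FC c ω₁ ω₂ (!![1, x; 0, 1] * g) m ξ
      = psiC c (x * qfL (ω₁ + ω₂) (ω₁ * ω₂) ξ) * FC c ω₁ ω₂ g m ξ

/-- **CX.02 DIAG.** -/
def DiagC : Prop :=
  ∀ (c ω₁ ω₂ a : ℂ), a ≠ 0 → ∀ (g m : Matrix (Fin 2) (Fin 2) ℂ) (ξ : ℂ × ℂ),
    AdmL (ω₁ + ω₂) (ω₁ * ω₂) g m →
    FC c ω₁ ω₂ (!![a, 0; 0, a⁻¹] * g) m ξ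
      = (1 : ℂ) * ((‖a‖ ^ 2 : ℝ) : ℂ) * FC c ω₁ ω₂ g m (a • ξ)

/-- **CX.03 TOR.** -/
def TorC : Prop :=
  ∀ (c ω₁ ω₂ : ℂ) (μ' : Matrix (Fin 2) (Fin 2) ℂ), InTorL (ω₁ + ω₂) (ω₁ * ω₂) μ' →
    μ'.det ≠ 0 → ∀ (g m : Matrix (Fin 2) (Fin 2) ℂ) (ξ : ℂ × ℂ),
    AdmL (ω₁ + ω₂) (ω₁ * ω₂) g m →
    ((Real.sqrt (‖μ'.det‖ ^ 2) : ℝ) : ℂ) * FC c ω₁ ω₂ (!![1, 0; 0, μ'.det] * g) (μ' * m) ξ
      = FC c ω₁ ω₂ g m (actL μ'⁻¹ ξ)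

/-- **CX.04 WEYL** (the Gaussian integral; the only analytic leaf). -/
def WeylC : Prop :=
  ∀ (c ω₁ ω₂ : ℂ), c ≠ 0 → ω₁ ≠ ω₂ → ∀ (g m : Matrix (Fin 2) (Fin 2) ℂ) (ξ : ℂ × ℂ),
    AdmL (ω₁ + ω₂) (ω₁ * ω₂) g m →
    FC c ω₁ ω₂ (!![0, 1; -1, 0] * g) m ξ
      = gamC c ω₁ ω₂ *
          intL volC fun y => FC c ω₁ ω₂ g m y * psiC c (bfL (ω₁ + ω₂) (ω₁ * ω₂) ξ y)

/-- **CX.05 REG**: continuity, integrability, joint continuity on the admissible pairs. -/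
def RegC : Prop :=
  ∀ (c ω₁ ω₂ : ℂ), c ≠ 0 → ω₁ ≠ ω₂ →
    (∀ g m : Matrix (Fin 2) (Fin 2) ℂ, AdmL (ω₁ + ω₂) (ω₁ * ω₂) g m →
      Continuous (FC c ω₁ ω₂ g m) ∧ IntegrableL volC (FC c ω₁ ω₂ g m)) ∧
    ContinuousOn
      (fun q : (Matrix (Fin 2) (Fin 2) ℂ × Matrix (Fin 2) (Fin 2) ℂ) × (ℂ × ℂ) =>
        FC c ω₁ ω₂ q.1.1 q.1.2 q.2)
      {q | AdmL (ω₁ + ω₂) (ω₁ * ω₂) q.1.1 q.1.2}

/-- **CX.06 DECAY**: uniform Gaussian decay on the bounded sets of admissible pairs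
(`N ≤ 2R²`, `N ≥ 1 / (2R²)` from `(g g⁻¹)₁₁ = 1`, `‖λ_i‖⁻¹ = ‖λ_i(m⁻¹)‖ ≤ R (1 + ‖ω_i‖)`,
`‖z₁‖² + ‖z₂‖² ≥ c₀ (‖ξ₁‖² + ‖ξ₂‖²)`). -/
def DecayC : Prop :=
  ∀ (c ω₁ ω₂ : ℂ), c ≠ 0 → ω₁ ≠ ω₂ → ∀ R : ℝ, ∃ A δ : ℝ, 0 < δ ∧
    ∀ g m : Matrix (Fin 2) (Fin 2) ℂ, AdmL (ω₁ + ω₂) (ω₁ * ω₂) g m →
      (∀ i j : Fin 2, ‖g i j‖ ≤ R ∧ ‖m i j‖ ≤ R ∧ ‖g⁻¹ i j‖ ≤ R ∧ ‖m⁻¹ i j‖ ≤ R) →
      ∀ ξ : ℂ × ℂ, ‖FC c ω₁ ω₂ g m ξ‖ ≤ A * Real.exp (-δ * (‖ξ.1‖ ^ 2 + ‖ξ.2‖ ^ 2))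

/-- **CX.07 RIGHT-INV**: invariance under the pairs `(k, κ)`, `k ∈ U(2)`, `κ ∈ T ∩ U(2)`,
`det k = det κ`. -/
def RightInvC : Prop :=
  ∀ (c ω₁ ω₂ : ℂ) (k κ : Matrix (Fin 2) (Fin 2) ℂ),
    k * k.conjTranspose = 1 → κ * κ.conjTranspose = 1 →
    InTorL (ω₁ + ω₂) (ω₁ * ω₂) κ → k.det = κ.det →
    ∀ (g m : Matrix (Fin 2) (Fin 2) ℂ) (ξ : ℂ × ℂ), AdmL (ω₁ + ω₂) (ω₁ * ω₂) g m →
      FC c ω₁ ω₂ (g * k) (m * κ) ξ = FC c ω₁ ω₂ g m ξ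

/-! ## 3. The package on `ℂ` -/

/-- The certificate `CpxAt` on `ℂ`, for the closed form. -/
structure CpxPack (c ω₁ ω₂ : ℂ) : Prop where
  ax : LocAx (fun x : ℂ => ‖x‖ ^ 2) (ω₁ + ω₂) (ω₁ * ω₂) (psiC c) volC (gamC c ω₁ ω₂)
    (fun _ => 1) (FC c ω₁ ω₂)
  gauss : ∀ ξ : ℂ × ℂ, FC c ω₁ ω₂ 1 1 ξ
    = Complex.exp (-((2 * Real.pi * ‖c‖ *
        (‖ξ.1 + ω₁ * ξ.2‖ ^ 2 + ‖ξ.1 + ω₂ * ξ.2‖ ^ 2) : ℝ) : ℂ))
  right_inv : ∀ k κ : Matrix (Fin 2) (Fin 2) ℂ,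
    k * k.conjTranspose = 1 → κ * κ.conjTranspose = 1 →
    InTorL (ω₁ + ω₂) (ω₁ * ω₂) κ → k.det = κ.det →
    ∀ (g m : Matrix (Fin 2) (Fin 2) ℂ) (ξ : ℂ × ℂ), AdmL (ω₁ + ω₂) (ω₁ * ω₂) g m →
      FC c ω₁ ω₂ (g * k) (m * κ) ξ = FC c ω₁ ω₂ g m ξ
  cont : ContinuousOn
    (fun q : (Matrix (Fin 2) (Fin 2) ℂ × Matrix (Fin 2) (Fin 2) ℂ) × (ℂ × ℂ) =>
      FC c ω₁ ω₂ q.1.1 q.1.2 q.2)
    {q | AdmL (ω₁ + ω₂) (ω₁ * ω₂) q.1.1 q.1.2}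
  decay : ∀ R : ℝ, ∃ A δ : ℝ, 0 < δ ∧
    ∀ g m : Matrix (Fin 2) (Fin 2) ℂ, AdmL (ω₁ + ω₂) (ω₁ * ω₂) g m →
      (∀ i j : Fin 2, ‖g i j‖ ≤ R ∧ ‖m i j‖ ≤ R ∧ ‖g⁻¹ i j‖ ≤ R ∧ ‖m⁻¹ i j‖ ≤ R) →
      ∀ ξ : ℂ × ℂ, ‖FC c ω₁ ω₂ g m ξ‖ ≤ A * Real.exp (-δ * (‖ξ.1‖ ^ 2 + ‖ξ.2‖ ^ 2))

/-- **The middle Prop**: the closed form is a certificate on `ℂ`. -/
def CpxPackC : Prop := ∀ c ω₁ ω₂ : ℂ, c ≠ 0 → ω₁ ≠ ω₂ → CpxPack c ω₁ ω₂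

/-! ## 4. The global leaves and the transport -/

/-- **CX.08 CHAR-FORM**: the continuous unitary characters of `ℂ` are the `ψ_c`
(a continuous homomorphism `ℝ → S¹` is `t ↦ exp(i a t)`: dyadic bisection near `0`). -/
def CharFormC : Prop :=
  ∀ χ : ℂ → ℂ, Continuous χ → (∀ x y : ℂ, χ (x + y) = χ x * χ y) → (∀ x : ℂ, ‖χ x‖ = 1) →
    ∃ c : ℂ, ∀ x : ℂ, χ x = psiC c x

/-- **CX.09 LOC-NONTRIV** (strong approximation): a nontrivial continuous character of `𝔸_K`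
trivial on `K` is nontrivial on `K_u`, `u` an infinite place (`K + K_u` is dense in `𝔸_K`:
approximation at the finite places (Chinese remainder theorem), then Minkowski
(Mathlib `NumberField.mixedEmbedding.exists_ne_zero_mem_ideal_lt`): a nonzero `k_ε` in a given
ideal, `< ε` at every infinite place `w ≠ u`, and rounding of `y / k_ε` to `𝓞 K`). -/
def LocNontrivC : Prop :=
  ∀ (K : Type) [Field K] [NumberField K] (ψ : A0.Adl K → ℂ) (u : InfinitePlace K),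
    T1.T1Out K → IsAdeleChar ψ → ∃ x : A0.Adl K, WL.AdlAtInf u x ∧ ψ x ≠ 1

/-- **CX.10 TRANSPORT** (plumbing): `K_u ≅ ℂ` by `extensionEmbedding` (a ring isomorphism and
an isometry), `ψ_u` = the restriction of `ψ` to `K_u` (`= ψ_c`, `c ≠ 0`), `μ_u` = the image of
the Lebesgue measure, `γ_u = gamC`, `η_u = 1`, `F_u g m ξ = FC (e g) (e m) (e ξ)`, `ω₁`, `ω₂` =
the roots of `X² - u(t) X + u(n)` in `ℂ` (distinct: `X² - tX + n` has no root in `K`). -/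
def TransportC : Prop := CpxPackC → CharFormC → LocNontrivC → LocCpxC

/-! ## 5. The middle and the top (PROVED) -/

theorem psiC_add798 (c x y : ℂ) : psiC c (x + y) = psiC c x * psiC c y := by
  unfold psiC
  rw [← Complex.exp_add]
  congr 1
  rw [mul_add, Complex.add_re]
  push_cast
  ring

theorem norm_psiC798 (c x : ℂ) : ‖psiC c x‖ = 1 := by
  unfold psiC
  rw [Complex.norm_exp]
  simp

theorem continuous_psiC798 (c : ℂ) : Continuous (psiC c) := by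
  unfold psiC
  fun_prop

theorem haar_volC798 :
    (letI : MeasurableSpace ℂ := borel ℂ
      ∀ (x : ℂ) (S : Set ℂ), volC ((fun y => x + y) '' S) = volC S) ∧
      (∀ C : Set ℂ, IsCompact C → volC C < ⊤) ∧
      ∀ U : Set ℂ, IsOpen U → U.Nonempty → 0 < volC U := by
  refine ⟨?_, ?_, ?_⟩
  · intro x S
    have h : (fun y : ℂ => x + y) '' S = (fun y : ℂ => -x + y) ⁻¹' S := by
      ext z
      constructor
      · rintro ⟨y, hy, rfl⟩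
        show -x + (x + y) ∈ S
        rw [neg_add_cancel_left]
        exact hy
      · intro hz
        exact ⟨-x + z, hz, by simp⟩
    rw [h]
    exact measure_preimage_add (volume : Measure ℂ) (-x) S
  · intro C hC
    exact IsCompact.measure_lt_top (μ := (volume : Measure ℂ)) hC
  · intro U hU hne
    exact IsOpen.measure_pos (volume : Measure ℂ) hU hne

theorem FC_one_one798 (c ω₁ ω₂ : ℂ) (ξ : ℂ × ℂ) :
    FC c ω₁ ω₂ 1 1 ξ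
      = Complex.exp (-((2 * Real.pi * ‖c‖ *
          (‖ξ.1 + ω₁ * ξ.2‖ ^ 2 + ‖ξ.1 + ω₂ * ξ.2‖ ^ 2) : ℝ) : ℂ)) := by
  have hN : rowN (1 : Matrix (Fin 2) (Fin 2) ℂ) = 1 := by
    simp [rowN]
  have hB : rowB (1 : Matrix (Fin 2) (Fin 2) ℂ) = 0 := by
    simp [rowB]
  have hl : ∀ ω : ℂ, lam ω (1 : Matrix (Fin 2) (Fin 2) ℂ) = 1 := by
    intro ω
    simp [lam]
  unfold FC
  rw [hN, hB, hl, hl]
  simp

/-- **The middle**: the package on `ℂ` from the leaves on `ℂ`. -/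
theorem cpxPack_of_leaves798 (hU : UnipC) (hD : DiagC) (hT : TorC) (hW : WeylC) (hR : RegC)
    (hDec : DecayC) (hRI : RightInvC) : CpxPackC := by
  intro c ω₁ ω₂ hc hω
  obtain ⟨hreg, hcont⟩ := hR c ω₁ ω₂ hc hω
  exact
    { ax :=
        { unip := fun x g m ξ h => hU c ω₁ ω₂ x g m ξ h
          weyl := fun g m ξ h => hW c ω₁ ω₂ hc hω g m ξ h
          diag := fun a ha g m ξ h => hD c ω₁ ω₂ a ha g m ξ h
          tor := fun μ' hμ hdet g m ξ h => hT c ω₁ ω₂ μ' hμ hdet g m ξ h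
          eta_mul := fun _ _ _ _ => (one_mul (1 : ℂ)).symm
          eta_sq := fun _ _ => Or.inl rfl
          eta_norm := fun _ _ _ => rfl
          eta_cont := continuousOn_const
          haar := haar_volC798
          psi_char := ⟨continuous_psiC798 c, psiC_add798 c, norm_psiC798 c⟩
          cont := fun g m h => (hreg g m h).1
          integrable := fun g m h => (hreg g m h).2 }
      gauss := FC_one_one798 c ω₁ ω₂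
      right_inv := fun k κ hk hκ hT' hdet g m ξ h => hRI c ω₁ ω₂ k κ hk hκ hT' hdet g m ξ h
      cont := hcont
      decay := hDec c ω₁ ω₂ hc hω }

/-- **The top of the station `LocCpxC`.** -/
theorem locCpxC_of_leaves798 (hU : UnipC) (hD : DiagC) (hT : TorC) (hW : WeylC) (hR : RegC)
    (hDec : DecayC) (hRI : RightInvC) (hChar : CharFormC) (hNon : LocNontrivC)
    (hTr : TransportC) : LocCpxC :=
  hTr (cpxPack_of_leaves798 hU hD hT hW hR hDec hRI) hChar hNon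

end Fermat.Agent.LT.A2.CX798

end
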